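import Mathlib
import Fermat.Agent.MU.Lib.BadRed.Nodal.Deuring2.S1
import Fermat.Agent.MU.Lib.BadRed.Nodal.Deuring2.FI2
import Fermat.Agent.MU.Lib.BadRed.Nodal.Deuring2.RRExist

section MergeWrap_Lib_BadRed_Nodal_Deuring2_SeedFI2 -- from Lib/BadRed/Nodal/Deuring2/SeedFI2.lean

set_option autoImplicit false

/-!
# Cluster T, WP N4: the valuation rings of a seed are incomparable; FI2 for a seed

From S1 (`V(m D₀) = L_C(m R₁, m R₂)`): there are functions `f ∈ O₁ ∩ O₂` with reduction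
`(a, 0)`, `a ≠ 0`, and with reduction `(0, b)`, `b ≠ 0`.  Hence `O₁ ≰ O₂`, `O₂ ≰ O₁` and the
two-valuation fundamental inequality `fi2_degree_le` holds for every seed.
-/

noncomputable section

open AlgebraicCurve Fermat.Agent.RR Fermat.Agent.Deuring

namespace Fermat.Agent.BadRed

variable {K F k Fk₁ Fk₂ : Type*} [Field K] [Field F] [Algebra K F]
  [Field k] [Field Fk₁] [Algebra k Fk₁] [Field Fk₂] [Algebra k Fk₂] {ι : Type*} [Fintype ι]

/-- a Riemann-Roch space of large degree is not zero. -/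
theorem sfi_exists_ne_zero {k Fk : Type*} [Field k] [Field Fk] [Algebra k Fk]
    (h : IsRRField k Fk) {D : Divisor k Fk}
    (hdeg : 2 * (genusFF k Fk : ℤ) - 2 < Divisor.degree D) (hdeg' : (genusFF k Fk : ℤ) ≤
      Divisor.degree D) : ∃ f ∈ riemannRochSpace D, f ≠ 0 := by
  have hellD := ell_of_degree_gt h hdeg
  have hpos : 0 < ell D := by
    have : (0 : ℤ) < (ell D : ℤ) := by rw [hellD]; linarith
    exact_mod_cast this
  by_contra hcon
  push Not at hcon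
  have hbot : riemannRochSpace D = ⊥ := by
    rw [eq_bot_iff]
    intro x hx
    rw [Submodule.mem_bot]
    exact hcon x hx
  rw [ell_def, hbot, finrank_bot] at hpos
  exact lt_irrefl _ hpos

variable (N : NodalSeed K F k Fk₁ Fk₂ ι)

open Classical in
/-- a function with reduction `(a, 0)`, `a ≠ 0`. -/
theorem NodalSeed.exists_left : ∃ f : F, f ∈ riemannRochSpace (N.m₀ • N.D₀) ∧ f ∈ N.S₁.Ov ∧
    f ∈ N.S₂.Ov ∧ N.S₁.red f ≠ 0 ∧ N.S₂.red f = 0 := by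
  set m := N.m₀ with hm
  set T : Finset (Place k Fk₁) := Finset.univ.image N.s₁ with hT
  have hTcard : T.card = Fintype.card ι := by
    rw [hT, Finset.card_image_of_injective _ N.s₁_inj, Finset.card_univ]
  have hTR : ∀ Q ∈ T, (m • N.R₁) Q = 0 := by
    intro Q hQ
    obtain ⟨i, -, rfl⟩ := Finset.mem_image.mp hQ
    rw [Finsupp.smul_apply, N.R₁_node i, smul_zero]
  have hdeg : Divisor.degree (m • N.R₁ - sumPlaces T) =
      m * Divisor.degree N.R₁ - Fintype.card ι := by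
    rw [map_sub, degree_sumPlaces N.S₁.hFk, hTcard, map_nsmul, nsmul_eq_mul]
  have h2 : (m : ℤ) = 2 * ((genusFF K F : ℤ) + genusFF k Fk₁ + genusFF k Fk₂)
      + Fintype.card ι + 1 := by
    rw [hm]
    unfold NodalSeed.m₀
    push_cast
    ring
  have hg := Int.natCast_nonneg (genusFF K F)
  have hg₁ := Int.natCast_nonneg (genusFF k Fk₁)
  have hg₂ := Int.natCast_nonneg (genusFF k Fk₂)
  have hm0 : (0 : ℤ) ≤ m := Int.natCast_nonneg m
  have h3 : (m : ℤ) ≤ m * Divisor.degree N.R₁ := by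
    have := N.R₁_pos
    nlinarith
  obtain ⟨a, ha, ha0⟩ := sfi_exists_ne_zero N.S₁.hFk (D := m • N.R₁ - sumPlaces T)
    (by rw [hdeg]; omega) (by rw [hdeg]; omega)
  rw [mem_riemannRochSpace_sub_sumPlaces_iff hTR] at ha
  have hab : ((a, 0) : Fk₁ × Fk₂) ∈ nodalRR N.s₁ N.s₂ (m • N.R₁) (m • N.R₂) := by
    refine ⟨ha.1, Submodule.zero_mem _, fun i => ⟨0, ?_, valAt_zero _⟩⟩
    exact (valAt_zero_right_iff _ _).mpr (ha.2 _ (Finset.mem_image_of_mem _ (Finset.mem_univ i)))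
  obtain ⟨f, hf, hf1, hf2, hfa, hfb⟩ := N.exists_lift (le_refl _) hab
  exact ⟨f, hf, hf1, hf2, by rw [hfa]; exact ha0, hfb⟩

open Classical in
/-- a function with reduction `(0, b)`, `b ≠ 0`. -/
theorem NodalSeed.exists_right : ∃ f : F, f ∈ riemannRochSpace (N.m₀ • N.D₀) ∧ f ∈ N.S₁.Ov ∧
    f ∈ N.S₂.Ov ∧ N.S₁.red f = 0 ∧ N.S₂.red f ≠ 0 := by
  set m := N.m₀ with hm
  set T : Finset (Place k Fk₂) := Finset.univ.image N.s₂ with hT
  have hTcard : T.card = Fintype.card ι := by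
    rw [hT, Finset.card_image_of_injective _ N.s₂_inj, Finset.card_univ]
  have hTR : ∀ Q ∈ T, (m • N.R₂) Q = 0 := by
    intro Q hQ
    obtain ⟨i, -, rfl⟩ := Finset.mem_image.mp hQ
    rw [Finsupp.smul_apply, N.R₂_node i, smul_zero]
  have hdeg : Divisor.degree (m • N.R₂ - sumPlaces T) =
      m * Divisor.degree N.R₂ - Fintype.card ι := by
    rw [map_sub, degree_sumPlaces N.S₂.hFk, hTcard, map_nsmul, nsmul_eq_mul]
  have h2 : (m : ℤ) = 2 * ((genusFF K F : ℤ) + genusFF k Fk₁ + genusFF k Fk₂)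
      + Fintype.card ι + 1 := by
    rw [hm]
    unfold NodalSeed.m₀
    push_cast
    ring
  have hg := Int.natCast_nonneg (genusFF K F)
  have hg₁ := Int.natCast_nonneg (genusFF k Fk₁)
  have hg₂ := Int.natCast_nonneg (genusFF k Fk₂)
  have hm0 : (0 : ℤ) ≤ m := Int.natCast_nonneg m
  have h3 : (m : ℤ) ≤ m * Divisor.degree N.R₂ := by
    have := N.R₂_pos
    nlinarith
  obtain ⟨b, hb, hb0⟩ := sfi_exists_ne_zero N.S₂.hFk (D := m • N.R₂ - sumPlaces T)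
    (by rw [hdeg]; omega) (by rw [hdeg]; omega)
  rw [mem_riemannRochSpace_sub_sumPlaces_iff hTR] at hb
  have hab : ((0, b) : Fk₁ × Fk₂) ∈ nodalRR N.s₁ N.s₂ (m • N.R₁) (m • N.R₂) := by
    refine ⟨Submodule.zero_mem _, hb.1, fun i => ⟨0, valAt_zero _, ?_⟩⟩
    exact (valAt_zero_right_iff _ _).mpr (hb.2 _ (Finset.mem_image_of_mem _ (Finset.mem_univ i)))
  obtain ⟨f, hf, hf1, hf2, hfa, hfb⟩ := N.exists_lift (le_refl _) hab
  exact ⟨f, hf, hf1, hf2, hfa, by rw [hfb]; exact hb0⟩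

/-- `O₁ ≰ O₂`. -/
theorem NodalSeed.ov_not_le₁₂ : ¬ N.S₁.Ov ≤ N.S₂.Ov := by
  obtain ⟨f, -, hf1, hf2, hfa, hfb⟩ := N.exists_left
  intro hle
  have hf0 : f ≠ 0 := N.S₁.ne_zero_of_red_ne_zero hfa
  have hinv : f⁻¹ ∈ N.S₁.Ov := N.S₁.inv_mem_of_red_ne_zero hfa
  exact (N.S₂.red_eq_zero_iff hf2 hf0).mp hfb (hle hinv)

/-- `O₂ ≰ O₁`. -/
theorem NodalSeed.ov_not_le₂₁ : ¬ N.S₂.Ov ≤ N.S₁.Ov := by
  obtain ⟨f, -, hf1, hf2, hfa, hfb⟩ := N.exists_right
  intro hle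
  have hf0 : f ≠ 0 := N.S₂.ne_zero_of_red_ne_zero hfb
  have hinv : f⁻¹ ∈ N.S₂.Ov := N.S₂.inv_mem_of_red_ne_zero hfb
  exact (N.S₁.red_eq_zero_iff hf1 hf0).mp hfa (hle hinv)

/-- **(FI2)** for a seed: `deg (red₁ w)_∞ + deg (red₂ w)_∞ ≤ deg (w)_∞` for `w ∈ O₁ ∩ O₂`. -/
theorem NodalSeed.fi2_degree_le {w : F} (hw₁ : w ∈ N.S₁.Ov) (hw₂ : w ∈ N.S₂.Ov) :
    Divisor.degree (poleDiv N.S₁.hFk (N.S₁.red w)) +
      Divisor.degree (poleDiv N.S₂.hFk (N.S₂.red w)) ≤ Divisor.degree (poleDiv N.S₁.hF w) :=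
  Fermat.Agent.BadRed.fi2_degree_le N.S₁ N.S₂ N.A_eq N.res_eq N.ov_not_le₁₂ N.ov_not_le₂₁ hw₁ hw₂

/-- surjectivity of the pair reduction `O₁ ∩ O₂ → Fk₁ × Fk₂`. -/
theorem NodalSeed.exists_pair_lift (a : Fk₁) (b : Fk₂) :
    ∃ f : F, f ∈ N.S₁.Ov ∧ f ∈ N.S₂.Ov ∧ N.S₁.red f = a ∧ N.S₂.red f = b :=
  fi2_exists_pair_lift N.S₁ N.S₂ N.ov_not_le₁₂ N.ov_not_le₂₁ a b

end Fermat.Agent.BadRed
end
end MergeWrap_Lib_BadRed_Nodal_Deuring2_SeedFI2

section MergeWrap_Lib_BadRed_Nodal_Deuring2_TypeA -- from Lib/BadRed/Nodal/Deuring2/TypeA.lean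

set_option autoImplicit false
set_option linter.unusedSectionVars false
set_option linter.style.haveILetI false

/-!
# Cluster T, WP N4, step S2 (part A): the excess of `V(m D₀ + P)` over `V(m D₀)`  (helper79)

Blueprint: `NOTES/blueprint-T-N4.md`.  For a seed `N`, a place `P` of `F / K` and `m ≥ m₁`:

* `exists_nodal_pair` : elements of the nodal Riemann-Roch space with prescribed values at the
  nodes and exact orders at finitely many other places;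
* `exists_sub_smul_mem` : `V(m D₀ + P) / V(m D₀)` is a line;
* `N.excess` : **(FI2 bound)** every `w ∈ V(m D₀ + P)` lies in `L(m R₁ + Q) × L(m R₂)` or in
  `L(m R₁) × L(m R₂ + Q)` for some place `Q`.
-/

noncomputable section

open AlgebraicCurve Fermat.Agent.RR Fermat.Agent.Deuring

namespace Fermat.Agent.BadRed

variable {K F k Fk₁ Fk₂ : Type*} [Field K] [Field F] [Algebra K F]
  [Field k] [Field Fk₁] [Algebra k Fk₁] [Field Fk₂] [Algebra k Fk₂]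

/-! ### linear algebra -/

/-- a subspace of codimension one: everything is proportional to a given element of the
complement, modulo the subspace. -/
theorem exists_sub_smul_mem_of_finrank {E : Type*} [AddCommGroup E] [Module k E]
    {V V' : Submodule k E} [FiniteDimensional k V'] (hle : V ≤ V')
    (hfin : Module.finrank k V' = Module.finrank k V + 1) {w : E} (hw : w ∈ V') (hwV : w ∉ V)
    {w' : E} (hw' : w' ∈ V') : ∃ l : k, w' - l • w ∈ V := by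
  have hsup : V ⊔ Submodule.span k {w} ≤ V' :=
    sup_le hle ((Submodule.span_singleton_le_iff_mem w V').mpr hw)
  have hlt : V < V ⊔ Submodule.span k {w} := by
    refine lt_of_le_of_ne le_sup_left fun h => hwV ?_
    rw [h]
    exact Submodule.mem_sup_right (Submodule.mem_span_singleton_self w)
  haveI : FiniteDimensional k ↥(V ⊔ Submodule.span k {w}) :=
    Submodule.finiteDimensional_of_le hsup
  have h1 := Submodule.finrank_lt_finrank_of_lt hlt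
  have heq : V ⊔ Submodule.span k {w} = V' := by
    apply Submodule.eq_of_le_of_finrank_le hsup
    omega
  rw [← heq] at hw'
  obtain ⟨v, hv, y, hy, hvy⟩ := Submodule.mem_sup.mp hw'
  obtain ⟨l, rfl⟩ := Submodule.mem_span_singleton.mp hy
  refine ⟨l, ?_⟩
  rw [← hvy, add_sub_cancel_right]
  exact hv

/-! ### pairs with prescribed behaviour -/

section Pair

variable {ι : Type*} [Fintype ι] [Infinite k]

/-- elements of the nodal Riemann-Roch space with prescribed values at the nodes and exact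
orders at finitely many other places. -/
theorem exists_nodal_pair (h₁ : IsRRField k Fk₁) (h₂ : IsRRField k Fk₂)
    (s₁ : ι → Place k Fk₁) (s₂ : ι → Place k Fk₂) (hs₁ : Function.Injective s₁)
    (hs₂ : Function.Injective s₂) (R₁ : Divisor k Fk₁) (R₂ : Divisor k Fk₂)
    (hR₁ : ∀ i, R₁ (s₁ i) = 0) (hR₂ : ∀ i, R₂ (s₂ i) = 0)
    (T₁ : Finset (Place k Fk₁)) (T₂ : Finset (Place k Fk₂))
    (hT₁ : ∀ Q ∈ T₁, ∀ i, Q ≠ s₁ i) (hT₂ : ∀ Q ∈ T₂, ∀ i, Q ≠ s₂ i)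
    (hdeg₁ : 2 * (genusFF k Fk₁ : ℤ) - 2 < Divisor.degree R₁ - Fintype.card ι - 1)
    (hdeg₂ : 2 * (genusFF k Fk₂ : ℤ) - 2 < Divisor.degree R₂ - Fintype.card ι - 1)
    (c : ι → k) :
    ∃ u ∈ nodalRR s₁ s₂ R₁ R₂, u.1 ≠ 0 ∧ u.2 ≠ 0 ∧
      (∀ i, ValAt (s₁ i) u.1 (c i)) ∧ (∀ i, ValAt (s₂ i) u.2 (c i)) ∧
      (∀ Q ∈ T₁, Q.ord u.1 = -R₁ Q) ∧ (∀ Q ∈ T₂, Q.ord u.2 = -R₂ Q) := by
  obtain ⟨a, ha, ha0, hac, haT⟩ :=
    exists_interpolation_exact h₁ s₁ hs₁ R₁ hR₁ T₁ hT₁ hdeg₁ c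
  obtain ⟨b, hb, hb0, hbc, hbT⟩ :=
    exists_interpolation_exact h₂ s₂ hs₂ R₂ hR₂ T₂ hT₂ hdeg₂ c
  exact ⟨(a, b), ⟨ha, hb, fun i => ⟨c i, hac i, hbc i⟩⟩, ha0, hb0, hac, hbc, haT, hbT⟩

end Pair

variable {ι : Type*} [Fintype ι] (N : NodalSeed K F k Fk₁ Fk₂ ι)

/-- the threshold of the type theory. -/
def NodalSeed.m₁ : ℕ := N.m₀ + 3

theorem NodalSeed.m₀_le_of_m₁_le {m : ℕ} (hm : N.m₁ ≤ m) : N.m₀ ≤ m := by
  unfold NodalSeed.m₁ at hm
  omega

theorem NodalSeed.degree_smul_R₁ (m : ℕ) :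
    Divisor.degree (m • N.R₁) = m * Divisor.degree N.R₁ := by
  rw [map_nsmul, nsmul_eq_mul]

theorem NodalSeed.degree_smul_R₂ (m : ℕ) :
    Divisor.degree (m • N.R₂) = m * Divisor.degree N.R₂ := by
  rw [map_nsmul, nsmul_eq_mul]

theorem NodalSeed.degree_smul_D₀ (m : ℕ) :
    Divisor.degree (m • N.D₀) = m * Divisor.degree N.D₀ := by
  rw [map_nsmul, nsmul_eq_mul]

/-- numerics: for `m ≥ m₁` the degree of `m R₁` is large. -/
theorem NodalSeed.big₁ {m : ℕ} (hm : N.m₁ ≤ m) :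
    2 * ((genusFF K F : ℤ) + genusFF k Fk₁ + genusFF k Fk₂) + Fintype.card ι + 4 ≤
      Divisor.degree (m • N.R₁) := by
  rw [N.degree_smul_R₁]
  have h2 : (N.m₁ : ℤ) ≤ m := by exact_mod_cast hm
  unfold NodalSeed.m₁ NodalSeed.m₀ at h2
  push_cast at h2
  have h3 : (m : ℤ) ≤ m * Divisor.degree N.R₁ := by
    have := N.R₁_pos
    have hm0 : (0 : ℤ) ≤ m := Int.natCast_nonneg m
    nlinarith
  omega

theorem NodalSeed.big₂ {m : ℕ} (hm : N.m₁ ≤ m) :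
    2 * ((genusFF K F : ℤ) + genusFF k Fk₁ + genusFF k Fk₂) + Fintype.card ι + 4 ≤
      Divisor.degree (m • N.R₂) := by
  rw [N.degree_smul_R₂]
  have h2 : (N.m₁ : ℤ) ≤ m := by exact_mod_cast hm
  unfold NodalSeed.m₁ NodalSeed.m₀ at h2
  push_cast at h2
  have h3 : (m : ℤ) ≤ m * Divisor.degree N.R₂ := by
    have := N.R₂_pos
    have hm0 : (0 : ℤ) ≤ m := Int.natCast_nonneg m
    nlinarith
  omega

theorem NodalSeed.big₀ {m : ℕ} (hm : N.m₁ ≤ m) :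
    2 * ((genusFF K F : ℤ) + genusFF k Fk₁ + genusFF k Fk₂) + Fintype.card ι + 4 ≤
      Divisor.degree (m • N.D₀) := by
  rw [N.degree_smul_D₀]
  have h2 : (N.m₁ : ℤ) ≤ m := by exact_mod_cast hm
  unfold NodalSeed.m₁ NodalSeed.m₀ at h2
  push_cast at h2
  have h3 : (m : ℤ) ≤ m * Divisor.degree N.D₀ := by
    have := N.degree_D₀_pos
    have hm0 : (0 : ℤ) ≤ m := Int.natCast_nonneg m
    nlinarith
  omega

theorem NodalSeed.smul_R₁_node (m : ℕ) (i : ι) : (m • N.R₁) (N.s₁ i) = 0 := by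
  rw [Finsupp.smul_apply, N.R₁_node i, smul_zero]

theorem NodalSeed.smul_R₂_node (m : ℕ) (i : ι) : (m • N.R₂) (N.s₂ i) = 0 := by
  rw [Finsupp.smul_apply, N.R₂_node i, smul_zero]

theorem NodalSeed.smul_D₀_nonneg (m : ℕ) : 0 ≤ m • N.D₀ := nsmul_nonneg N.D₀_nonneg m

theorem NodalSeed.smul_R₁_nonneg (m : ℕ) : 0 ≤ m • N.R₁ := nsmul_nonneg N.R₁_nonneg m

theorem NodalSeed.smul_R₂_nonneg (m : ℕ) : 0 ≤ m • N.R₂ := nsmul_nonneg N.R₂_nonneg m

/-- `ℓ(m D₀ + P) = ℓ(m D₀) + 1`. -/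
theorem NodalSeed.ell_add_single {m : ℕ} (hm : N.m₁ ≤ m) (P : Place K F) :
    ell (m • N.D₀ + Finsupp.single P 1) = ell (m • N.D₀) + 1 := by
  have hb := N.big₀ hm
  have hg₁ := Int.natCast_nonneg (genusFF k Fk₁)
  have hg₂ := Int.natCast_nonneg (genusFF k Fk₂)
  have hs := Int.natCast_nonneg (Fintype.card ι)
  have h1 := ell_of_degree_gt N.S₁.hF (D := m • N.D₀) (by omega)
  have h2 := ell_of_degree_gt N.S₁.hF (D := m • N.D₀ + Finsupp.single P 1)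
    (by rw [map_add, degree_single_one N.S₁.hF]; omega)
  rw [map_add, degree_single_one N.S₁.hF] at h2
  have : (ell (m • N.D₀ + Finsupp.single P 1) : ℤ) = (ell (m • N.D₀) : ℤ) + 1 := by omega
  exact_mod_cast this

/-- `ℓ(m D₀) = ℓ(m D₀ - P) + 1`. -/
theorem NodalSeed.ell_sub_single {m : ℕ} (hm : N.m₁ ≤ m) (P : Place K F) :
    ell (m • N.D₀) = ell (m • N.D₀ - Finsupp.single P 1) + 1 := by
  have hb := N.big₀ hm
  have hg₁ := Int.natCast_nonneg (genusFF k Fk₁)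
  have hg₂ := Int.natCast_nonneg (genusFF k Fk₂)
  have hs := Int.natCast_nonneg (Fintype.card ι)
  have h1 := ell_of_degree_gt N.S₁.hF (D := m • N.D₀) (by omega)
  have h2 := ell_of_degree_gt N.S₁.hF (D := m • N.D₀ - Finsupp.single P 1)
    (by rw [map_sub, degree_single_one N.S₁.hF]; omega)
  rw [map_sub, degree_single_one N.S₁.hF] at h2
  have : (ell (m • N.D₀) : ℤ) = (ell (m • N.D₀ - Finsupp.single P 1) : ℤ) + 1 := by omega
  exact_mod_cast this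

/-- `V(m D₀ + P) / V(m D₀)` is a line. -/
theorem NodalSeed.exists_sub_smul_mem {m : ℕ} (hm : N.m₁ ≤ m) (P : Place K F)
    {w w' : Fk₁ × Fk₂} (hw : w ∈ N.toNodalCore.V (m • N.D₀ + Finsupp.single P 1))
    (hwV : w ∉ N.toNodalCore.V (m • N.D₀))
    (hw' : w' ∈ N.toNodalCore.V (m • N.D₀ + Finsupp.single P 1)) :
    ∃ l : k, w' - l • w ∈ N.toNodalCore.V (m • N.D₀) := by
  haveI := N.toNodalCore.finite_V (m • N.D₀ + Finsupp.single P 1)
  refine exists_sub_smul_mem_of_finrank (N.toNodalCore.V_mono (le_add_single _ P)) ?_ hw hwV hw'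
  rw [N.toNodalCore.finrank_V, N.toNodalCore.finrank_V, N.ell_add_single hm P]

/-- there is an element of `V(m D₀ + P)` outside `V(m D₀)`. -/
theorem NodalSeed.exists_not_mem {m : ℕ} (hm : N.m₁ ≤ m) (P : Place K F) :
    ∃ w ∈ N.toNodalCore.V (m • N.D₀ + Finsupp.single P 1), w ∉ N.toNodalCore.V (m • N.D₀) := by
  by_contra hcon
  push Not at hcon
  have hle : N.toNodalCore.V (m • N.D₀ + Finsupp.single P 1) ≤ N.toNodalCore.V (m • N.D₀) := hcon
  haveI := N.toNodalCore.finite_V (m • N.D₀)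
  have h1 := Submodule.finrank_mono hle
  rw [N.toNodalCore.finrank_V, N.toNodalCore.finrank_V, N.ell_add_single hm P] at h1
  omega

/-! ### numerics -/

theorem NodalSeed.hdeg₁ {m : ℕ} (hm : N.m₁ ≤ m) :
    2 * (genusFF k Fk₁ : ℤ) - 2 < Divisor.degree (m • N.R₁) - Fintype.card ι - 1 := by
  have := N.big₁ hm
  have hg := Int.natCast_nonneg (genusFF K F)
  have hg₂ := Int.natCast_nonneg (genusFF k Fk₂)
  omega

theorem NodalSeed.hdeg₂ {m : ℕ} (hm : N.m₁ ≤ m) :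
    2 * (genusFF k Fk₂ : ℤ) - 2 < Divisor.degree (m • N.R₂) - Fintype.card ι - 1 := by
  have := N.big₂ hm
  have hg := Int.natCast_nonneg (genusFF K F)
  have hg₁ := Int.natCast_nonneg (genusFF k Fk₁)
  omega

/-! ### the excess -/

/-- a function whose poles are bounded by `X ≥ R` with `deg X ≤ deg R` lies in `L(R)`. -/
theorem mem_riemannRochSpace_of_poleDiv_le {k Fk : Type*} [Field k] [Field Fk] [Algebra k Fk]
    (h : IsRRField k Fk) {R X : Divisor k Fk} {a : Fk} (hRX : R ≤ X) (haX : poleDiv h a ≤ X)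
    (hdeg : Divisor.degree X ≤ Divisor.degree R) : a ∈ riemannRochSpace R := by
  have hXR : R = X := eq_of_le_of_degree_eq h hRX (le_antisymm (degree_mono h hRX) hdeg)
  rw [hXR]
  exact riemannRochSpace_mono haX (mem_riemannRochSpace_poleDiv h a)

/-- a function whose poles are bounded by `X ≥ R` with `deg X ≤ deg R + 1` lies in `L(R + Q)`
for some place `Q`. -/
theorem exists_mem_riemannRochSpace_add_single {k Fk : Type*} [Field k] [Field Fk]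
    [Algebra k Fk] (h : IsRRField k Fk) {R X : Divisor k Fk} {a : Fk} (hRX : R ≤ X)
    (haX : poleDiv h a ≤ X) (hdeg : Divisor.degree X ≤ Divisor.degree R + 1) :
    ∃ Q : Place k Fk, a ∈ riemannRochSpace (R + Finsupp.single Q 1) := by
  rcases (degree_mono h hRX).lt_or_eq with hlt | heq
  · have hE : 0 ≤ X - R := sub_nonneg.mpr hRX
    have hdE : Divisor.degree (X - R) = 1 := by
      rw [map_sub]
      omega
    obtain ⟨Q, hQ⟩ := exists_eq_single_of_degree_eq_one h hE hdE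
    refine ⟨Q, ?_⟩
    rw [← hQ, add_sub_cancel]
    exact riemannRochSpace_mono haX (mem_riemannRochSpace_poleDiv h a)
  · obtain ⟨Q⟩ := nonempty_place h
    exact ⟨Q, riemannRochSpace_mono (le_add_single R Q)
      (mem_riemannRochSpace_of_poleDiv_le h hRX haX heq.ge)⟩

/-- **(FI2 bound)**: every element of `V(m D₀ + P)` lies in `L(m R₁ + Q) × L(m R₂)` or in
`L(m R₁) × L(m R₂ + Q)`, for some place `Q`. -/
theorem NodalSeed.excess [Infinite k] {m : ℕ} (hm : N.m₁ ≤ m) (P : Place K F)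
    {w : Fk₁ × Fk₂} (hw : w ∈ N.toNodalCore.V (m • N.D₀ + Finsupp.single P 1)) :
    (w.2 ∈ riemannRochSpace (m • N.R₂) ∧
        ∃ Q : Place k Fk₁, w.1 ∈ riemannRochSpace (m • N.R₁ + Finsupp.single Q 1)) ∨
      (w.1 ∈ riemannRochSpace (m • N.R₁) ∧
        ∃ Q : Place k Fk₂, w.2 ∈ riemannRochSpace (m • N.R₂ + Finsupp.single Q 1)) := by
  classical
  obtain ⟨f, hf, hfw⟩ := (N.toNodalCore.mem_V_iff _).mp hw
  have hfw₁ : N.S₁.red f = w.1 := congrArg Prod.fst hfw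
  have hfw₂ : N.S₂.red f = w.2 := congrArg Prod.snd hfw
  -- an element with exact pole divisor
  obtain ⟨u, hu, -, -, -, -, huT₁, huT₂⟩ := exists_nodal_pair N.S₁.hFk N.S₂.hFk N.s₁ N.s₂
    N.s₁_inj N.s₂_inj (m • N.R₁) (m • N.R₂) (N.smul_R₁_node m) (N.smul_R₂_node m)
    (m • N.R₁).support (m • N.R₂).support
    (fun Q hQ i hQi => (Finsupp.mem_support_iff.mp hQ) (hQi ▸ N.smul_R₁_node m i))
    (fun Q hQ i hQi => (Finsupp.mem_support_iff.mp hQ) (hQi ▸ N.smul_R₂_node m i))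
    (N.hdeg₁ hm) (N.hdeg₂ hm) (fun _ => 0)
  have hpu₁ : m • N.R₁ ≤ poleDiv N.S₁.hFk u.1 := by
    rw [Finsupp.le_def]
    intro Q
    rw [poleDiv_apply]
    by_cases hQ : Q ∈ (m • N.R₁).support
    · rw [huT₁ Q hQ, neg_neg]
      exact le_max_left _ _
    · rw [Finsupp.notMem_support_iff.mp hQ]
      exact le_max_right _ _
  have hpu₂ : m • N.R₂ ≤ poleDiv N.S₂.hFk u.2 := by
    rw [Finsupp.le_def]
    intro Q
    rw [poleDiv_apply]
    by_cases hQ : Q ∈ (m • N.R₂).support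
    · rw [huT₂ Q hQ, neg_neg]
      exact le_max_left _ _
    · rw [Finsupp.notMem_support_iff.mp hQ]
      exact le_max_right _ _
  obtain ⟨f₀, hf₀L, hf₀1, hf₀2, hf₀a, hf₀b⟩ :=
    N.exists_lift (N.m₀_le_of_m₁_le hm) (a := u.1) (b := u.2) hu
  -- a generic combination
  have hB₁ := finite_bad_combination N.S₁.hFk w.1 u.1
  have hB₂ := finite_bad_combination N.S₂.hFk w.2 u.2
  obtain ⟨l, hl⟩ := ((hB₁.union hB₂).infinite_compl).nonempty
  rw [Set.mem_compl_iff, Set.mem_union, not_or, Set.mem_ofPred_eq, Set.mem_ofPred_eq, not_not,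
    not_not] at hl
  obtain ⟨⟨hl₁w, hl₁u⟩, ⟨hl₂w, hl₂u⟩⟩ := hl
  obtain ⟨⟨c, hc⟩, rfl⟩ := N.S₁.res_surj l
  have hc₂ : c ∈ N.S₂.A := N.toNodalCore.mem_A₂ hc
  have hg₁ : f + c • f₀ ∈ N.S₁.Ov := add_mem hf.2.1 (N.S₁.smul_mem hc hf₀1)
  have hg₂ : f + c • f₀ ∈ N.S₂.Ov := add_mem hf.2.2 (N.S₂.smul_mem hc₂ hf₀2)
  have hgL : f + c • f₀ ∈ riemannRochSpace (m • N.D₀ + Finsupp.single P 1) :=
    Submodule.add_mem _ hf.1
      (Submodule.smul_mem _ c (riemannRochSpace_mono (le_add_single _ P) hf₀L))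
  have hr₁ : N.S₁.red (f + c • f₀) = w.1 + N.S₁.res ⟨c, hc⟩ • u.1 := by
    rw [N.S₁.red_add hf.2.1 (N.S₁.smul_mem hc hf₀1), N.S₁.red_smul hc hf₀1, hfw₁, hf₀a]
  have hr₂ : N.S₂.red (f + c • f₀) = w.2 + N.S₁.res ⟨c, hc⟩ • u.2 := by
    rw [N.S₂.red_add hf.2.2 (N.S₂.smul_mem hc₂ hf₀2), N.S₂.red_smul hc₂ hf₀2, hfw₂, hf₀b,
      N.res_eq c hc hc₂]
  have hFI := N.fi2_degree_le hg₁ hg₂
  rw [hr₁, hr₂] at hFI
  have hnn : 0 ≤ m • N.D₀ + Finsupp.single P 1 :=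
    (N.smul_D₀_nonneg m).trans (le_add_single _ P)
  have hpg := degree_mono N.S₁.hF (fi_poleDiv_le N.S₁.hF hnn hgL)
  rw [map_add, degree_single_one N.S₁.hF, N.degree_smul_D₀, ← N.deg_eq] at hpg
  have hX₁ := degree_mono N.S₁.hFk (hpu₁.trans hl₁u)
  have hX₂ := degree_mono N.S₂.hFk (hpu₂.trans hl₂u)
  rw [N.degree_smul_R₁] at hX₁
  rw [N.degree_smul_R₂] at hX₂
  rcases le_or_gt (Divisor.degree (poleDiv N.S₁.hFk (w.1 + N.S₁.res ⟨c, hc⟩ • u.1)))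
    (m * Divisor.degree N.R₁) with h1 | h1
  · right
    refine ⟨mem_riemannRochSpace_of_poleDiv_le N.S₁.hFk (hpu₁.trans hl₁u) hl₁w
      (by rw [N.degree_smul_R₁]; exact h1), ?_⟩
    refine exists_mem_riemannRochSpace_add_single N.S₂.hFk (hpu₂.trans hl₂u) hl₂w ?_
    rw [N.degree_smul_R₂]
    linarith
  · left
    refine ⟨mem_riemannRochSpace_of_poleDiv_le N.S₂.hFk (hpu₂.trans hl₂u) hl₂w
      (by rw [N.degree_smul_R₂]; linarith), ?_⟩
    refine exists_mem_riemannRochSpace_add_single N.S₁.hFk (hpu₁.trans hl₁u) hl₁w ?_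
    rw [N.degree_smul_R₁]
    linarith

/-! ### the swap of the two components -/

theorem nodalRR_swap {s₁ : ι → Place k Fk₁} {s₂ : ι → Place k Fk₂} {R₁ : Divisor k Fk₁}
    {R₂ : Divisor k Fk₂} {a : Fk₁} {b : Fk₂} (h : (a, b) ∈ nodalRR s₁ s₂ R₁ R₂) :
    (b, a) ∈ nodalRR s₂ s₁ R₂ R₁ :=
  ⟨h.2.1, h.1, fun i => by
    obtain ⟨c, hc1, hc2⟩ := h.2.2 i
    exact ⟨c, hc2, hc1⟩⟩

theorem swap_mem_nodalRR_iff {s₁ : ι → Place k Fk₁} {s₂ : ι → Place k Fk₂}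
    {R₁ : Divisor k Fk₁} {R₂ : Divisor k Fk₂} {w : Fk₁ × Fk₂} :
    w.swap ∈ nodalRR s₂ s₁ R₂ R₁ ↔ w ∈ nodalRR s₁ s₂ R₁ R₂ :=
  ⟨fun h => nodalRR_swap (a := w.2) (b := w.1) h, fun h => nodalRR_swap (a := w.1) (b := w.2) h⟩

/-- the core with the two components exchanged. -/
def NodalCore.swap (C : NodalCore K F k Fk₁ Fk₂ ι) : NodalCore K F k Fk₂ Fk₁ ι where
  S₁ := C.S₂
  S₂ := C.S₁
  A_eq := C.A_eq.symm
  res_eq := fun c h₁ h₂ => (C.res_eq c h₂ h₁).symm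
  lat₁ := C.lat₂
  lat₂ := C.lat₁
  s₁ := C.s₂
  s₂ := C.s₁
  s₁_inj := C.s₂_inj
  s₂_inj := C.s₁_inj
  arch := fun c hc hc' d => by
    have hc1 : c ∈ C.S₁.A := C.A_eq.symm ▸ hc
    have hc1' : c⁻¹ ∉ C.S₁.A := fun h => hc' (C.A_eq ▸ h)
    obtain ⟨j, hj⟩ := C.arch c hc1 hc1' d
    exact ⟨j, C.A_eq ▸ hj⟩

theorem NodalCore.swap_isInt_iff (C : NodalCore K F k Fk₁ Fk₂ ι) (D : Divisor K F) (f : F) :
    C.swap.IsInt D f ↔ C.IsInt D f :=
  ⟨fun h => ⟨h.1, h.2.2, h.2.1⟩, fun h => ⟨h.1, h.2.2, h.2.1⟩⟩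

theorem NodalCore.swap_red₂ (C : NodalCore K F k Fk₁ Fk₂ ι) (f : F) :
    C.swap.red₂ f = (C.red₂ f).swap := rfl

theorem NodalCore.mem_swap_V_iff (C : NodalCore K F k Fk₁ Fk₂ ι) (D : Divisor K F)
    {w : Fk₂ × Fk₁} : w ∈ C.swap.V D ↔ w.swap ∈ C.V D := by
  rw [C.swap.mem_V_iff, C.mem_V_iff]
  constructor
  · rintro ⟨f, hf, rfl⟩
    exact ⟨f, (C.swap_isInt_iff D f).mp hf, by rw [C.swap_red₂, Prod.swap_swap]⟩
  · rintro ⟨f, hf, hfw⟩
    refine ⟨f, (C.swap_isInt_iff D f).mpr hf, ?_⟩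
    rw [C.swap_red₂, hfw, Prod.swap_swap]

/-- the seed with the two components exchanged. -/
def NodalSeed.swap : NodalSeed K F k Fk₂ Fk₁ ι where
  toNodalCore := N.toNodalCore.swap
  D₀ := N.D₀
  R₁ := N.R₂
  R₂ := N.R₁
  D₀_nonneg := N.D₀_nonneg
  R₁_nonneg := N.R₂_nonneg
  R₂_nonneg := N.R₁_nonneg
  R₁_pos := N.R₂_pos
  R₂_pos := N.R₁_pos
  R₁_node := N.R₂_node
  R₂_node := N.R₁_node
  deg_eq := by rw [add_comm]; exact N.deg_eq
  seed := fun m f hf h₁ h₂ => nodalRR_swap (N.seed m f hf h₂ h₁)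
  genus_le := by
    have := N.genus_le
    omega

theorem NodalSeed.swap_m₁ : N.swap.m₁ = N.m₁ := by
  unfold NodalSeed.m₁ NodalSeed.m₀
  omega

theorem NodalSeed.mem_swap_V_iff (D : Divisor K F) {w : Fk₂ × Fk₁} :
    w ∈ N.swap.toNodalCore.V D ↔ w.swap ∈ N.toNodalCore.V D :=
  N.toNodalCore.mem_swap_V_iff D

end Fermat.Agent.BadRed
end
end MergeWrap_Lib_BadRed_Nodal_Deuring2_TypeA
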