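import Mathlib
import Fermat.Agent.MU.Lib.BadRed.Nodal.Deuring2.TypeDef
import Fermat.Agent.MU.Lib.BadRed.Nodal.Deuring2.RRExist
import Fermat.Agent.MU.Lib.BadRed.Nodal.Deuring2.Push
import Fermat.Agent.MU.Lib.BadRed.Nodal.Deuring2.TypeA

section MergeWrap_Lib_BadRed_Nodal_Deuring2_Node -- from Lib/BadRed/Nodal/Deuring2/Node.lean

set_option autoImplicit false

/-!
# Cluster T, WP N4, step S8: the NODE CONDITION

`NodalType.node` : a function `f ∈ O₁ ∩ O₂` without poles in the annuli (`T.r P = none`) reduces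
to a pair of functions which are regular at the nodes and take the same value on both branches.

Proof: kill the poles of `f` (ordinary places) by a product `z` of the functions of
`T.node_unit` (value `1` at the node `i`); then `f z ∈ 𝔏(M D₀)` reduces to a nodal pair by the
seed, and `red_j f = red_j (f z) / red_j z`.
-/

noncomputable section

open AlgebraicCurve Fermat.Agent.RR Fermat.Agent.Deuring

namespace Fermat.Agent.BadRed

section Values

variable {k Fk : Type*} [Field k] [Field Fk] [Algebra k Fk]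

theorem nd_valAt_one (Q : Place k Fk) : ValAt Q (1 : Fk) (1 : k) := Or.inl (map_one _).symm

/-- division by a function with the value `1`. -/
theorem nd_valAt_of_mul {Q : Place k Fk} {a b : Fk} {c : k} (hab : ValAt Q (a * b) c)
    (hb : ValAt Q b 1) : ValAt Q a c := by
  have hb0 : b ≠ 0 := by
    rintro rfl
    have := (ValAt.unique hb (valAt_zero Q))
    exact one_ne_zero this
  have hordb : Q.ord b = 0 := (hb.ord_eq_zero_iff hb0).mpr one_ne_zero
  rw [valAt_iff_vanAt] at hab hb ⊢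
  have h2 : VanAt Q ((-c) • (b - algebraMap k Fk 1)) := hb.smul (-c)
  have h3 := hab.add h2
  have he : a * b - algebraMap k Fk c + (-c) • (b - algebraMap k Fk 1) =
      (a - algebraMap k Fk c) * b := by
    rw [Algebra.smul_def, map_neg, map_one]
    ring
  rw [he] at h3
  rcases eq_or_ne (a - algebraMap k Fk c) 0 with h0 | h0
  · exact Or.inl h0
  right
  have := h3.resolve_left (mul_ne_zero h0 hb0)
  rwa [Q.ord_mul h0 hb0, hordb, add_zero] at this

end Values

section ListDiv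

variable {K F : Type*} [Field K] [Field F] [Algebra K F]

theorem nd_listDiv_apply_of_not_mem (l : List (Place K F)) (P : Place K F) (hP : P ∉ l) :
    Push.listDiv l P = 0 := by
  induction l with
  | nil => rw [Push.listDiv_nil, Finsupp.zero_apply]
  | cons P' l ih =>
    rw [Push.listDiv_cons, Finsupp.add_apply, ih (fun h => hP (List.mem_cons_of_mem _ h)),
      add_zero]
    have hne : P' ≠ P := fun h => hP (h ▸ List.mem_cons_self)
    exact Finsupp.single_eq_of_ne' hne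

end ListDiv

variable {K F k Fk₁ Fk₂ : Type*} [Field K] [Field F] [Algebra K F]
  [Field k] [Field Fk₁] [Algebra k Fk₁] [Field Fk₂] [Algebra k Fk₂] {ι : Type*} [Fintype ι]
  {N : NodalSeed K F k Fk₁ Fk₂ ι}

/-- a function of `𝔏(M D₀ - E)` with the value `1` at the node `i`, for `E` a sum of ordinary
places. -/
theorem NodalType.exists_node_unit_list (T : NodalType N) (i : ι) (l : List (Place K F))
    (hl : ∀ P ∈ l, T.r P ≠ none) :
    ∃ (M : ℕ) (z : F), N.toNodalCore.IsInt (M • N.D₀ - Push.listDiv l) z ∧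
      ValAt (N.s₁ i) (N.S₁.red z) 1 ∧ ValAt (N.s₂ i) (N.S₂.red z) 1 := by
  induction l with
  | nil =>
    refine ⟨0, 1, ⟨?_, one_mem _, one_mem _⟩, ?_, ?_⟩
    · rw [zero_smul, Push.listDiv_nil, sub_zero]
      exact one_mem_riemannRochSpace_of_nonneg (le_refl (0 : Divisor K F))
    · rw [N.S₁.red_one]
      exact nd_valAt_one _
    · rw [N.S₂.red_one]
      exact nd_valAt_one _
  | cons P l ih =>
    obtain ⟨M, z, hz, hz1, hz2⟩ := ih fun P' hP' => hl P' (List.mem_cons_of_mem _ hP')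
    obtain ⟨X, hX⟩ := Option.ne_none_iff_exists'.mp (hl P List.mem_cons_self)
    obtain ⟨m, h, hh, hh1, hh2⟩ := T.node_unit P X hX i
    refine ⟨m + M, h * z, ?_, ?_, ?_⟩
    · have e : (m + M) • N.D₀ - Push.listDiv (P :: l)
          = (m • N.D₀ - Finsupp.single P 1) + (M • N.D₀ - Push.listDiv l) := by
        rw [Push.listDiv_cons, add_smul]
        abel
      rw [e]
      exact NodalCore.IsInt.mul _ hh hz
    · rw [N.S₁.red_mul hh.2.1 hz.2.1]
      have := hh1.mul hz1
      rwa [one_mul] at this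
    · rw [N.S₂.red_mul hh.2.2 hz.2.2]
      have := hh2.mul hz2
      rwa [one_mul] at this

/-- the poles of a function without poles in the annuli are bounded by a sum of ordinary
places. -/
theorem NodalType.exists_pole_list (T : NodalType N) {f : F}
    (hf : ∀ P, T.r P = none → 0 ≤ P.ord f) :
    ∃ l : List (Place K F), (∀ P ∈ l, T.r P ≠ none) ∧ f ∈ riemannRochSpace (Push.listDiv l) := by
  classical
  obtain ⟨lp, lm, lp', lm', h1, h2, h3, h4, h5, -⟩ :=
    Push.exists_lists (fun P => T.r P ≠ none) (divOf N.S₁.hF f)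
  refine ⟨lm, h2, ?_⟩
  rw [mem_riemannRochSpace_iff]
  intro v
  rcases eq_or_ne f 0 with hf0 | hf0
  · exact Or.inl hf0
  right
  have hv : v.ord f = Push.listDiv lp v - Push.listDiv lm v + Push.listDiv lp' v
      - Push.listDiv lm' v := by
    rw [← divOf_apply N.S₁.hF f v, h5]
    simp only [Finsupp.sub_apply, Finsupp.add_apply]
  by_cases hr : T.r v = none
  · have hm : Push.listDiv lm v = 0 :=
      nd_listDiv_apply_of_not_mem lm v (fun h => h2 v h hr)
    rw [hm, neg_zero]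
    exact hf v hr
  · have hm' : Push.listDiv lm' v = 0 :=
      nd_listDiv_apply_of_not_mem lm' v (fun h => h4 v h hr)
    have hp := Finsupp.le_def.mp (Push.listDiv_nonneg lp) v
    have hp' := Finsupp.le_def.mp (Push.listDiv_nonneg lp') v
    rw [Finsupp.zero_apply] at hp hp'
    rw [hv, hm']
    omega

/-- **S8, the NODE CONDITION.** -/
theorem NodalType.node (T : NodalType N) {f : F} (h₁ : f ∈ N.S₁.Ov) (h₂ : f ∈ N.S₂.Ov)
    (hf : ∀ P, T.r P = none → 0 ≤ P.ord f) (i : ι) :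
    0 ≤ (N.s₁ i).ord (N.S₁.red f) ∧ 0 ≤ (N.s₂ i).ord (N.S₂.red f) ∧
      ∃ c : k, ValAt (N.s₁ i) (N.S₁.red f) c ∧ ValAt (N.s₂ i) (N.S₂.red f) c := by
  obtain ⟨l, hl, hfl⟩ := T.exists_pole_list hf
  obtain ⟨M, z, hz, hz1, hz2⟩ := T.exists_node_unit_list i l hl
  have hfz : f * z ∈ riemannRochSpace (M • N.D₀) := by
    have := mul_mem_riemannRochSpace_add hfl hz.1
    rwa [add_sub_cancel] at this
  have hseed := N.seed M (f * z) hfz (mul_mem h₁ hz.2.1) (mul_mem h₂ hz.2.2)
  obtain ⟨c, hc1, hc2⟩ := hseed.2.2 i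
  rw [N.S₁.red_mul h₁ hz.2.1] at hc1
  rw [N.S₂.red_mul h₂ hz.2.2] at hc2
  have hv1 := nd_valAt_of_mul hc1 hz1
  have hv2 := nd_valAt_of_mul hc2 hz2
  exact ⟨hv1.ord_nonneg, hv2.ord_nonneg, c, hv1, hv2⟩

end Fermat.Agent.BadRed
end
end MergeWrap_Lib_BadRed_Nodal_Deuring2_Node

section MergeWrap_Lib_BadRed_Nodal_Deuring2_Assembly -- from Lib/BadRed/Nodal/Deuring2/Assembly.lean

set_option autoImplicit false

/-!
# Cluster T, WP N4: assembly `NodalType → NodalSetup`

* `NodalType.Push₁`, `NodalType.Push₂` : the push statements of `NodalSetup` for `r := T.r`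
  (proved in `PushOne.lean`);
* `NodalType.r_surj₁`, `NodalType.r_surj₂` (S7): every smooth point of the special fibre lifts
  (from `Push` applied to a two-sided unit whose reduction has order `≠ 0` at `Q`);
* `NodalType.toNodalSetup` : the `NodalSetup` of a seed, with `genusRel`.
-/

noncomputable section

open AlgebraicCurve Fermat.Agent.RR Fermat.Agent.Deuring

namespace Fermat.Agent.BadRed

variable {K F k Fk₁ Fk₂ : Type*} [Field K] [Field F] [Algebra K F]
  [Field k] [Field Fk₁] [Algebra k Fk₁] [Field Fk₂] [Algebra k Fk₂] {ι : Type*} [Fintype ι]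
  {N : NodalSeed K F k Fk₁ Fk₂ ι}

/-- the push statement on the first component (units of `O₁`). -/
def NodalType.Push₁ (T : NodalType N) : Prop :=
  ∀ f : F, f ∈ N.S₁.Ov → f⁻¹ ∈ N.S₁.Ov → f ≠ 0 →
    ∀ Q : Place k Fk₁, (∀ i, Q ≠ N.s₁ i) →
      Finsupp.mapDomain T.r (divOf N.S₁.hF f) (some (Sum.inl Q)) = Q.ord (N.S₁.red f)

/-- the push statement on the second component (units of `O₂`). -/
def NodalType.Push₂ (T : NodalType N) : Prop :=
  ∀ f : F, f ∈ N.S₂.Ov → f⁻¹ ∈ N.S₂.Ov → f ≠ 0 →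
    ∀ Q : Place k Fk₂, (∀ i, Q ≠ N.s₂ i) →
      Finsupp.mapDomain T.r (divOf N.S₁.hF f) (some (Sum.inr Q)) = Q.ord (N.S₂.red f)

/-- **S7**: every smooth point of the first component lifts. -/
theorem NodalType.r_surj₁ [Infinite k] (T : NodalType N) (hpush : T.Push₁)
    (Q : Place k Fk₁) (hQ : ∀ i, Q ≠ N.s₁ i) : ∃ P, T.r P = some (Sum.inl Q) := by
  classical
  set m := N.m₁ + 1 with hm
  have hm₁ : N.m₁ ≤ m := Nat.le_succ _
  have hR₁ : ∀ i, (m • N.R₁ - Finsupp.single Q 1 : Divisor k Fk₁) (N.s₁ i) = 0 := by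
    intro i
    rw [Finsupp.sub_apply, N.smul_R₁_node, Finsupp.single_eq_of_ne' (hQ i), sub_zero]
  have hdeg₁ : 2 * (genusFF k Fk₁ : ℤ) - 2 <
      Divisor.degree (m • N.R₁ - Finsupp.single Q 1 : Divisor k Fk₁) - Fintype.card ι - 1 := by
    have := N.big₁ hm₁
    have hg := Int.natCast_nonneg (genusFF K F)
    have hg₂ := Int.natCast_nonneg (genusFF k Fk₂)
    rw [map_sub, degree_single_one N.S₁.hFk]
    omega
  obtain ⟨a, ha, ha0, hac, haT⟩ := exists_interpolation_exact N.S₁.hFk N.s₁ N.s₁_inj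
    (m • N.R₁ - Finsupp.single Q 1) hR₁ {Q}
    (fun Q' hQ' i => by rw [Finset.mem_singleton.mp hQ']; exact hQ i) hdeg₁ (fun _ => 1)
  obtain ⟨b, hb, hb0, hbc, -⟩ := exists_interpolation_exact N.S₂.hFk N.s₂ N.s₂_inj
    (m • N.R₂) (N.smul_R₂_node m) ∅ (fun Q' hQ' => absurd hQ' (Finset.notMem_empty _))
    (N.hdeg₂ hm₁) (fun _ => 1)
  have haL : a ∈ riemannRochSpace (m • N.R₁) := by
    refine riemannRochSpace_mono ?_ ha
    rw [sub_le_self_iff]
    intro v
    rw [Finsupp.zero_apply]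
    by_cases hv : Q = v
    · subst hv
      rw [Finsupp.single_eq_same]
      exact zero_le_one
    · rw [Finsupp.single_eq_of_ne' hv]
  have hab : ((a, b) : Fk₁ × Fk₂) ∈ nodalRR N.s₁ N.s₂ (m • N.R₁) (m • N.R₂) :=
    ⟨haL, hb, fun i => ⟨1, hac i, hbc i⟩⟩
  obtain ⟨u, -, hu1, -, hua, -⟩ := N.exists_lift (N.m₀_le_of_m₁_le hm₁) hab
  have hred : N.S₁.red u ≠ 0 := by rw [hua]; exact ha0
  have hpu := hpush u hu1 (N.S₁.inv_mem_of_red_ne_zero hred) (N.S₁.ne_zero_of_red_ne_zero hred)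
    Q hQ
  have hord : Q.ord a = 1 - (m • N.R₁) Q := by
    rw [haT Q (Finset.mem_singleton_self Q), Finsupp.sub_apply, Finsupp.single_eq_same]
    ring
  have hne : Q.ord (N.S₁.red u) ≠ 0 := by
    rw [hua, hord, Finsupp.smul_apply, nsmul_eq_mul]
    have h0 := Finsupp.le_def.mp N.R₁_nonneg Q
    rw [Finsupp.zero_apply] at h0
    have hm2 : (2 : ℤ) ≤ m := by
      have : 2 ≤ m := by
        rw [hm]
        unfold NodalSeed.m₁
        omega
      exact_mod_cast this
    rcases eq_or_lt_of_le h0 with h | h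
    · rw [← h, mul_zero]
      norm_num
    · have : (m : ℤ) ≤ m * N.R₁ Q := by nlinarith
      omega
  by_contra hcon
  push Not at hcon
  apply hne
  rw [← hpu]
  apply Finsupp.mapDomain_notin_range
  rintro ⟨P, hP⟩
  exact hcon P hP

/-- **S7**: every smooth point of the second component lifts. -/
theorem NodalType.r_surj₂ [Infinite k] (T : NodalType N) (hpush : T.Push₂)
    (Q : Place k Fk₂) (hQ : ∀ i, Q ≠ N.s₂ i) : ∃ P, T.r P = some (Sum.inr Q) := by
  classical
  set m := N.m₁ + 1 with hm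
  have hm₁ : N.m₁ ≤ m := Nat.le_succ _
  have hR₂ : ∀ i, (m • N.R₂ - Finsupp.single Q 1 : Divisor k Fk₂) (N.s₂ i) = 0 := by
    intro i
    rw [Finsupp.sub_apply, N.smul_R₂_node, Finsupp.single_eq_of_ne' (hQ i), sub_zero]
  have hdeg₂ : 2 * (genusFF k Fk₂ : ℤ) - 2 <
      Divisor.degree (m • N.R₂ - Finsupp.single Q 1 : Divisor k Fk₂) - Fintype.card ι - 1 := by
    have := N.big₂ hm₁
    have hg := Int.natCast_nonneg (genusFF K F)
    have hg₁ := Int.natCast_nonneg (genusFF k Fk₁)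
    rw [map_sub, degree_single_one N.S₂.hFk]
    omega
  obtain ⟨b, hb, hb0, hbc, hbT⟩ := exists_interpolation_exact N.S₂.hFk N.s₂ N.s₂_inj
    (m • N.R₂ - Finsupp.single Q 1) hR₂ {Q}
    (fun Q' hQ' i => by rw [Finset.mem_singleton.mp hQ']; exact hQ i) hdeg₂ (fun _ => 1)
  obtain ⟨a, ha, ha0, hac, -⟩ := exists_interpolation_exact N.S₁.hFk N.s₁ N.s₁_inj
    (m • N.R₁) (N.smul_R₁_node m) ∅ (fun Q' hQ' => absurd hQ' (Finset.notMem_empty _))
    (N.hdeg₁ hm₁) (fun _ => 1)
  have hbL : b ∈ riemannRochSpace (m • N.R₂) := by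
    refine riemannRochSpace_mono ?_ hb
    rw [sub_le_self_iff]
    intro v
    rw [Finsupp.zero_apply]
    by_cases hv : Q = v
    · subst hv
      rw [Finsupp.single_eq_same]
      exact zero_le_one
    · rw [Finsupp.single_eq_of_ne' hv]
  have hab : ((a, b) : Fk₁ × Fk₂) ∈ nodalRR N.s₁ N.s₂ (m • N.R₁) (m • N.R₂) :=
    ⟨ha, hbL, fun i => ⟨1, hac i, hbc i⟩⟩
  obtain ⟨u, -, -, hu2, -, hub⟩ := N.exists_lift (N.m₀_le_of_m₁_le hm₁) hab
  have hred : N.S₂.red u ≠ 0 := by rw [hub]; exact hb0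
  have hpu := hpush u hu2 (N.S₂.inv_mem_of_red_ne_zero hred) (N.S₂.ne_zero_of_red_ne_zero hred)
    Q hQ
  have hord : Q.ord b = 1 - (m • N.R₂) Q := by
    rw [hbT Q (Finset.mem_singleton_self Q), Finsupp.sub_apply, Finsupp.single_eq_same]
    ring
  have hne : Q.ord (N.S₂.red u) ≠ 0 := by
    rw [hub, hord, Finsupp.smul_apply, nsmul_eq_mul]
    have h0 := Finsupp.le_def.mp N.R₂_nonneg Q
    rw [Finsupp.zero_apply] at h0
    have hm2 : (2 : ℤ) ≤ m := by
      have : 2 ≤ m := by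
        rw [hm]
        unfold NodalSeed.m₁
        omega
      exact_mod_cast this
    rcases eq_or_lt_of_le h0 with h | h
    · rw [← h, mul_zero]
      norm_num
    · have : (m : ℤ) ≤ m * N.R₂ Q := by nlinarith
      omega
  by_contra hcon
  push Not at hcon
  apply hne
  rw [← hpu]
  apply Finsupp.mapDomain_notin_range
  rintro ⟨P, hP⟩
  exact hcon P hP

/-- **The nodal reduction package of a seed.** -/
def NodalType.toNodalSetup [Infinite k] (T : NodalType N) (h₁ : T.Push₁) (h₂ : T.Push₂) :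
    NodalSetup K F k Fk₁ Fk₂ ι where
  S₁ := N.S₁
  S₂ := N.S₂
  A_eq := N.A_eq
  res_eq := N.res_eq
  lat₁ := N.lat₁
  lat₂ := N.lat₂
  s₁ := N.s₁
  s₂ := N.s₂
  s₁_inj := N.s₁_inj
  s₂_inj := N.s₂_inj
  r := T.r
  r_ne_node₁ := T.r_ne_node₁
  r_ne_node₂ := T.r_ne_node₂
  r_surj₁ := T.r_surj₁ h₁
  r_surj₂ := T.r_surj₂ h₂
  push₁ := h₁
  push₂ := h₂
  node := fun _ hf₁ hf₂ hf i => T.node hf₁ hf₂ hf i

theorem NodalType.toNodalSetup_genusRel [Infinite k] (T : NodalType N) (h₁ : T.Push₁)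
    (h₂ : T.Push₂) : (T.toNodalSetup h₁ h₂).GenusRel :=
  N.genus_eq

@[simp]
theorem NodalType.toNodalSetup_r [Infinite k] (T : NodalType N) (h₁ : T.Push₁)
    (h₂ : T.Push₂) : (T.toNodalSetup h₁ h₂).r = T.r := rfl

@[simp]
theorem NodalType.toNodalSetup_S₁ [Infinite k] (T : NodalType N) (h₁ : T.Push₁)
    (h₂ : T.Push₂) : (T.toNodalSetup h₁ h₂).S₁ = N.S₁ := rfl

@[simp]
theorem NodalType.toNodalSetup_S₂ [Infinite k] (T : NodalType N) (h₁ : T.Push₁)
    (h₂ : T.Push₂) : (T.toNodalSetup h₁ h₂).S₂ = N.S₂ := rfl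

end Fermat.Agent.BadRed
end
end MergeWrap_Lib_BadRed_Nodal_Deuring2_Assembly
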